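/-
P-ES / J-SMOOTH (row 434, helper58): every point of `J₀(N)(ℚ̄)` has an open stabiliser in `G_ℚ`.

`jSmoothStatement : Fermat.Agent.H28.JSmoothStatement` (torsion is not used).

Proof.  Every element of the function field `F = ℚ̄ · F₀` is fixed by `G_L` for a finite `L/ℚ`
(`F` is generated by constants and by series with rational coefficients).  For a place `v` take
`π` with `ord_v π = 1`; its divisor has finite support.  If `σ` fixes `π` then `σ v` lies in this
support, and for each `w ≠ v` in the support an element `f_w` with `ord_v f_w > 0 ≥ ord_w f_w`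
fixed by `σ` forces `σ v ≠ w`.  So `v` is fixed by `G_L` for a finite `L`; a divisor has finite
support, and a class is represented by a divisor.
-/
import Fermat.Agent.H28.ES.Interface3
import Fermat.Agent.H58.RR.Modular
import Fermat.Agent.H23.PlaceBasic

set_option autoImplicit false
set_option linter.style.haveILetI false

noncomputable section

open AlgebraicCurve ModularCurve IntermediateField

namespace Fermat.Agent.H58

/-- Finitely many "open" conditions have a common finite field of definition. -/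
theorem jsmooth_exists_common {ι : Type*} (S : Finset ι)
    (P : ι → IntermediateField ℚ (AlgebraicClosure ℚ) → Prop)
    (hmono : ∀ i L L', L ≤ L' → P i L → P i L')
    (hP : ∀ i ∈ S, ∃ L : IntermediateField ℚ (AlgebraicClosure ℚ),
      FiniteDimensional ℚ L ∧ P i L) :
    ∃ L : IntermediateField ℚ (AlgebraicClosure ℚ), FiniteDimensional ℚ L ∧ ∀ i ∈ S, P i L := by
  classical
  induction S using Finset.induction_on with
  | empty => exact ⟨⊥, inferInstance, fun i hi => absurd hi (Finset.notMem_empty i)⟩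
  | insert a S ha ih =>
    obtain ⟨L₁, hL₁, h₁⟩ := ih (fun i hi => hP i (Finset.mem_insert_of_mem hi))
    obtain ⟨L₂, hL₂, h₂⟩ := hP a (Finset.mem_insert_self a S)
    refine ⟨L₁ ⊔ L₂, inferInstance, fun i hi => ?_⟩
    rcases Finset.mem_insert.mp hi with rfl | hi'
    · exact hmono _ _ _ le_sup_right h₂
    · exact hmono _ _ _ le_sup_left (h₁ i hi')

/-- Every element of `ℚ̄ · F₀` is fixed (coefficientwise) by `G_L` for a finite `L/ℚ`. -/
theorem jsmooth_series_fixed (F₀ : IntermediateField ℚ (LaurentSeries ℚ))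
    (f : LaurentSeries (AlgebraicClosure ℚ))
    (hf : f ∈ laurentBaseChange (AlgebraicClosure ℚ) F₀) :
    ∃ L : IntermediateField ℚ (AlgebraicClosure ℚ), FiniteDimensional ℚ L ∧
      ∀ σ : AlgebraicClosure ℚ ≃ₐ[ℚ] AlgebraicClosure ℚ, (∀ y ∈ L, σ y = y) →
        coeffMap (σ : AlgebraicClosure ℚ →+* AlgebraicClosure ℚ) f = f := by
  rw [mem_laurentBaseChange_iff] at hf
  induction hf using Subfield.closure_induction with
  | mem y hy =>
    rcases hy with ⟨a, rfl⟩ | ⟨z, -, rfl⟩
    · have ha : IsIntegral ℚ a := ((AlgebraicClosure.isAlgebraic ℚ).isAlgebraic a).isIntegral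
      haveI : FiniteDimensional ℚ ℚ⟮a⟯ := IntermediateField.adjoin.finiteDimensional ha
      refine ⟨ℚ⟮a⟯, inferInstance, fun σ hσ => ?_⟩
      rw [coeffMap_algebraMap]
      congr 1
      exact hσ a (IntermediateField.mem_adjoin_simple_self ℚ a)
    · exact ⟨⊥, inferInstance, fun σ _ => coeffMap_coeffEmb σ z⟩
  | one => exact ⟨⊥, inferInstance, fun σ _ => map_one _⟩
  | add x y _ _ hx hy =>
    obtain ⟨L₁, hL₁, h₁⟩ := hx
    obtain ⟨L₂, hL₂, h₂⟩ := hy
    refine ⟨L₁ ⊔ L₂, inferInstance, fun σ hσ => ?_⟩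
    rw [map_add, h₁ σ (fun y hy => hσ y ((le_sup_left : L₁ ≤ L₁ ⊔ L₂) hy)),
      h₂ σ (fun y hy => hσ y ((le_sup_right : L₂ ≤ L₁ ⊔ L₂) hy))]
  | neg x _ hx =>
    obtain ⟨L₁, hL₁, h₁⟩ := hx
    exact ⟨L₁, hL₁, fun σ hσ => by rw [map_neg, h₁ σ hσ]⟩
  | inv x _ hx =>
    obtain ⟨L₁, hL₁, h₁⟩ := hx
    exact ⟨L₁, hL₁, fun σ hσ => by rw [map_inv₀, h₁ σ hσ]⟩
  | mul x y _ _ hx hy =>
    obtain ⟨L₁, hL₁, h₁⟩ := hx
    obtain ⟨L₂, hL₂, h₂⟩ := hy
    refine ⟨L₁ ⊔ L₂, inferInstance, fun σ hσ => ?_⟩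
    rw [map_mul, h₁ σ (fun y hy => hσ y ((le_sup_left : L₁ ≤ L₁ ⊔ L₂) hy)),
      h₂ σ (fun y hy => hσ y ((le_sup_right : L₂ ≤ L₁ ⊔ L₂) hy))]

section

variable (F₀ : IntermediateField ℚ (LaurentSeries ℚ))

/-- Every element of the function field is fixed by `G_L` for a finite `L/ℚ`. -/
theorem jsmooth_elem_fixed (f : ↥(laurentBaseChange (AlgebraicClosure ℚ) F₀)) :
    ∃ L : IntermediateField ℚ (AlgebraicClosure ℚ), FiniteDimensional ℚ L ∧
      ∀ σ : AlgebraicClosure ℚ ≃ₐ[ℚ] AlgebraicClosure ℚ, (∀ y ∈ L, σ y = y) →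
        arithmeticGalois F₀ σ • f = f := by
  obtain ⟨L, hL, h⟩ := jsmooth_series_fixed F₀ (f : LaurentSeries (AlgebraicClosure ℚ)) f.2
  exact ⟨L, hL, fun σ hσ => Subtype.ext (h σ hσ)⟩

/-- Two distinct places are separated by an element. -/
theorem jsmooth_exists_sep {K F : Type*} [Field K] [Field F] [Algebra K F]
    (v w : Place K F) (hvw : w ≠ v) : ∃ f : F, 0 < v.ord f ∧ w.ord f ≤ 0 := by
  by_contra hcon
  push Not at hcon
  apply hvw
  refine Fermat.Agent.H23.place_ext_of_ord w v fun f hf => ?_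
  by_contra hneg
  push Not at hneg
  have h1 : 0 < v.ord f⁻¹ := by rw [Place.ord_inv]; omega
  have h2 := hcon f⁻¹ h1
  rw [Place.ord_inv] at h2
  omega

/-- An automorphism fixing `f` preserves the order of `f` along the orbit of a place. -/
theorem jsmooth_ord_of_fixed {K F : Type*} [Field K] [Field F] [Algebra K F]
    (g : SemilinearAut K F) (v : Place K F) (f : F) (hf : g • f = f) :
    (g • v).ord f = v.ord f := by
  have h1 := SemilinearAut.ord_smul g v f
  rwa [hf] at h1

/-- Abstract core: a place is fixed by every automorphism fixing finitely many elements. -/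
theorem jsmooth_place_core {K F : Type*} [Field K] [Field F] [Algebra K F]
    [HasPrincipalDivisors K F] (v : Place K F) :
    ∃ T : Finset F, ∀ g : SemilinearAut K F, (∀ f ∈ T, g • f = f) → g • v = v := by
  classical
  obtain ⟨π, -, hπ⟩ := Fermat.Agent.H23.exists_irreducible_ord_one v
  have hπ0 : (π : F) ≠ 0 := by
    intro h0
    rw [h0, Place.ord_zero] at hπ
    exact zero_ne_one hπ
  obtain ⟨D, hD, -⟩ := HasPrincipalDivisors.exists_divisor (K := K) (π : F) hπ0
  have hsep : ∀ w : Place K F, ∃ f : F, w ≠ v → (0 < v.ord f ∧ w.ord f ≤ 0) := by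
    intro w
    by_cases hwv : w = v
    · exact ⟨0, fun h => absurd hwv h⟩
    · obtain ⟨f, hf⟩ := jsmooth_exists_sep v w hwv
      exact ⟨f, fun _ => hf⟩
  choose sep hsep' using hsep
  refine ⟨insert (π : F) ((D.support.erase v).image sep), fun g hg => ?_⟩
  by_contra hne
  have h1 : (g • v).ord (π : F) = 1 := by
    rw [jsmooth_ord_of_fixed g v _ (hg _ (Finset.mem_insert_self _ _)), hπ]
  have hmem : g • v ∈ D.support.erase v := by
    rw [Finset.mem_erase, Finsupp.mem_support_iff, hD, h1]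
    exact ⟨hne, one_ne_zero⟩
  have h2 := hsep' (g • v) hne
  have h3 : (g • v).ord (sep (g • v)) = v.ord (sep (g • v)) :=
    jsmooth_ord_of_fixed g v _
      (hg _ (Finset.mem_insert_of_mem (Finset.mem_image_of_mem sep hmem)))
  omega

/-- Every place of the function field is fixed by `G_L` for a finite `L/ℚ`. -/
theorem jsmooth_place_fixed
    [HasPrincipalDivisors (AlgebraicClosure ℚ) ↥(laurentBaseChange (AlgebraicClosure ℚ) F₀)]
    (v : Place (AlgebraicClosure ℚ) ↥(laurentBaseChange (AlgebraicClosure ℚ) F₀)) :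
    ∃ L : IntermediateField ℚ (AlgebraicClosure ℚ), FiniteDimensional ℚ L ∧
      ∀ σ : AlgebraicClosure ℚ ≃ₐ[ℚ] AlgebraicClosure ℚ, (∀ y ∈ L, σ y = y) →
        arithmeticGalois F₀ σ • v = v := by
  obtain ⟨T, hT⟩ := jsmooth_place_core v
  obtain ⟨L, hL, hfix⟩ := jsmooth_exists_common T
    (fun f L => ∀ σ : AlgebraicClosure ℚ ≃ₐ[ℚ] AlgebraicClosure ℚ,
        (∀ y ∈ L, σ y = y) → arithmeticGalois F₀ σ • f = f)
    (fun f L L' hLL' h σ hσ => h σ (fun y hy => hσ y (hLL' hy)))
    (fun f _ => jsmooth_elem_fixed F₀ f)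
  exact ⟨L, hL, fun σ hσ => hT _ (fun f hf => hfix f hf σ hσ)⟩

/-- Every divisor class of degree `0` is fixed by `G_L` for a finite `L/ℚ`. -/
theorem jsmooth_pic0_fixed
    [HasPrincipalDivisors (AlgebraicClosure ℚ) ↥(laurentBaseChange (AlgebraicClosure ℚ) F₀)]
    (x : Pic0 (AlgebraicClosure ℚ) ↥(laurentBaseChange (AlgebraicClosure ℚ) F₀)) :
    ∃ L : IntermediateField ℚ (AlgebraicClosure ℚ), FiniteDimensional ℚ L ∧
      ∀ σ : AlgebraicClosure ℚ ≃ₐ[ℚ] AlgebraicClosure ℚ, (∀ y ∈ L, σ y = y) → σ • x = x := by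
  classical
  obtain ⟨D, rfl⟩ := Pic0.mk_surjective x
  obtain ⟨L, hL, hfix⟩ := jsmooth_exists_common (D : Divisor (AlgebraicClosure ℚ)
      ↥(laurentBaseChange (AlgebraicClosure ℚ) F₀)).support
    (fun v L => ∀ σ : AlgebraicClosure ℚ ≃ₐ[ℚ] AlgebraicClosure ℚ,
        (∀ y ∈ L, σ y = y) → arithmeticGalois F₀ σ • v = v)
    (fun v L L' hLL' h σ hσ => h σ (fun y hy => hσ y (hLL' hy)))
    (fun v _ => jsmooth_place_fixed F₀ v)
  refine ⟨L, hL, fun σ hσ => ?_⟩
  rw [galois_smul_pic0_def, SemilinearAut.pic0_smul_mk]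
  congr 1
  apply Subtype.ext
  rw [SemilinearAut.coe_degZeroSMulHom, SemilinearAut.divisor_smul_def]
  have h1 : Finsupp.mapDomain (fun v => arithmeticGalois F₀ σ • v)
      (D : Divisor (AlgebraicClosure ℚ) ↥(laurentBaseChange (AlgebraicClosure ℚ) F₀))
      = Finsupp.mapDomain id (D : Divisor (AlgebraicClosure ℚ)
          ↥(laurentBaseChange (AlgebraicClosure ℚ) F₀)) :=
    Finsupp.mapDomain_congr fun v hv => hfix v hv σ hσ
  rw [h1, Finsupp.mapDomain_id]

end

/-- **J-SMOOTH** (row 434): every point of `J₀(N)(ℚ̄)` is fixed by an open subgroup of `G_ℚ`. -/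
theorem jSmoothStatement : Fermat.Agent.H28.JSmoothStatement := by
  intro N _ x _
  haveI := hasPrincipalDivisors_modularFunctionFieldBar N
  exact jsmooth_pic0_fixed (modularFunctionFieldFull N) x

end Fermat.Agent.H58

end
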